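import Fermat.Agent.IntValued.Local
import Fermat.Agent.AmbiguousClass.Divisor

/-!
# Leading coefficients of integer-valued polynomials and regular bases

The leading coefficients in degree `m` of the polynomials carrying the ring of integers into itself
form the inverse of the factorial ideal; there is a regular basis iff all factorial ideals are
principal, iff for every `q` the product of the primes of norm `q` is principal.
-/

set_option autoImplicit false

noncomputable section

open NumberField Polynomial IsDedekindDomain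
open scoped Classical

namespace FA.IntValued

open FA.ArtinRec FA.AmbClass

variable (K : Type*) [Field K] [NumberField K]

/-- Integer-valued on the ring of integers. -/
def IntVal (f : K[X]) : Prop := ∀ x : 𝓞 K, ∃ y : 𝓞 K, f.eval (x : K) = y

/-- A regular basis: one polynomial of each degree, spanning over the ring of integers. -/
def HasRegularBasis : Prop :=
  ∃ b : ℕ → K[X], (∀ m, IntVal K (b m) ∧ (b m).degree = m) ∧
    ∀ f, IntVal K f → f ∈ Submodule.span (𝓞 K) (Set.range b)

variable {K}

theorem finite_absNorm_le (m : ℕ) :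
    {v : HeightOneSpectrum (𝓞 K) | Ideal.absNorm v.asIdeal ≤ m}.Finite :=
  Set.Finite.of_finite_image ((Ideal.finite_setOfPred_absNorm_le (S := 𝓞 K) m).subset
    (by rintro _ ⟨v, hv, rfl⟩; exact hv)) fun _ _ _ _ h => HeightOneSpectrum.ext h

variable (K) in
/-- The divisor of the factorial ideal. -/
def factDiv (m : ℕ) : Dvs K :=
  Multiplicative.ofAdd (Finsupp.ofSupportFinite
    (fun v : HeightOneSpectrum (𝓞 K) => (factExp (Ideal.absNorm v.asIdeal) m : ℤ))
    ((finite_absNorm_le m).subset fun v hv =>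
      by_contra fun h => hv (by simp [factExp_eq_zero (not_le.1 h)])))

@[simp] theorem toAdd_factDiv (m : ℕ) (v : HeightOneSpectrum (𝓞 K)) :
    Multiplicative.toAdd (factDiv K m) v = (factExp (Ideal.absNorm v.asIdeal) m : ℤ) := rfl

theorem finite_norm_eq (q : ℕ) :
    {v : HeightOneSpectrum (𝓞 K) | Ideal.absNorm v.asIdeal = q}.Finite :=
  (finite_absNorm_le q).subset fun _ hv => le_of_eq hv

variable (K) in
/-- The divisor of the product of the primes of norm `q`. -/
def normDiv (q : ℕ) : Dvs K :=
  Multiplicative.ofAdd (Finsupp.ofSupportFinite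
    (fun v : HeightOneSpectrum (𝓞 K) => if Ideal.absNorm v.asIdeal = q then (1 : ℤ) else 0)
    ((finite_norm_eq q).subset fun v hv => by_contra fun h => hv (if_neg h)))

@[simp] theorem toAdd_normDiv (q : ℕ) (v : HeightOneSpectrum (𝓞 K)) :
    Multiplicative.toAdd (normDiv K q) v = if Ideal.absNorm v.asIdeal = q then (1 : ℤ) else 0 := rfl

/-- A polynomial with given roots and leading coefficient. -/
theorem exists_intVal {m : ℕ} {c : Kˣ}
    (hc : ∀ v, -(factExp (Ideal.absNorm v.asIdeal) m : ℤ) ≤ ord v c) :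
    ∃ f : K[X], IntVal K f ∧ f.degree = m ∧ f.coeff m = (c : K) := by
  set S := (finite_absNorm_le (K := K) m).toFinset
  choose a ha using fun v : HeightOneSpectrum (𝓞 K) => exists_seq v.isPrime v.ne_bot m
  have hb : ∀ i, ∃ y : 𝓞 K, ∀ v ∈ S, y - a v i ∈ v.asIdeal ^ m := fun i => by
    obtain ⟨y, hy⟩ := IsDedekindDomain.exists_forall_sub_mem_ideal (s := S)
      (fun v => v.asIdeal) (fun _ => m) (fun v _ => v.prime)
      (fun v _ w _ hne h => hne (HeightOneSpectrum.ext h)) fun v => a v.1 i
    exact ⟨y, fun v hv => hy v hv⟩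
  choose b hb using hb
  set f := C (c : K) * ∏ i ∈ Finset.range m, (X - C (b i : K))
  have hmon : (∏ i ∈ Finset.range m, (X - C (b i : K))).Monic :=
    monic_prod_of_monic _ _ fun i _ => monic_X_sub_C _
  have hdeg : (∏ i ∈ Finset.range m, (X - C (b i : K))).natDegree = m := by
    rw [natDegree_prod_of_monic _ _ fun i _ => monic_X_sub_C _]
    simp
  refine ⟨f, fun x => ?_, ?_, ?_⟩
  · have he : f.eval (x : K) = (c : K) * ((∏ i ∈ Finset.range m, (x - b i) : 𝓞 K) : K) := by
      simp [f, eval_prod]
    rw [he]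
    by_cases h0 : (∏ i ∈ Finset.range m, (x - b i) : 𝓞 K) = 0
    · exact ⟨0, by rw [h0]; simp⟩
    obtain ⟨y, hy, hyc⟩ := exists_intU_of_ord_nonneg (x := c * intU _ h0) fun v => by
      rw [ord_mul]
      rcases lt_or_ge m (Ideal.absNorm v.asIdeal) with hv | hv
      · have h1 := hc v
        rw [factExp_eq_zero hv] at h1
        have h2 := ord_intU_nonneg v h0
        omega
      · have hmem : ∏ i ∈ Finset.range m, (x - b i) ∈
            v.asIdeal ^ factExp (Ideal.absNorm v.asIdeal) m := by
          refine prod_sub_mem v.isPrime v.ne_bot (fun i _ j _ t _ ht => ?_) x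
          have hvS : v ∈ S := (Set.Finite.mem_toFinset _).2 hv
          have hi := Ideal.pow_le_pow_right ht (hb i v hvS)
          have hj := Ideal.pow_le_pow_right ht (hb j v hvS)
          rw [← ha v i j t ht, show b i - b j = a v i - a v j + ((b i - a v i) - (b j - a v j)) by
            ring, (v.asIdeal ^ t).add_mem_iff_left (sub_mem hi hj)]
        have h1 := hc v
        have h2 := (le_ord_intU_iff v h0 _).2 hmem
        omega
    exact ⟨y, by rw [← intU_val y hy, ← hyc, Units.val_mul, intU_val]⟩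
  · rw [degree_C_mul c.ne_zero, degree_eq_natDegree hmon.ne_zero, hdeg]
  · conv_lhs => rw [← hdeg]
    rw [coeff_C_mul, ← leadingCoeff, hmon, mul_one]

/-- Differences in an adapted sequence. -/
theorem ord_prod_sub_le {v : HeightOneSpectrum (𝓞 K)} {m i : ℕ} (hi : i ≤ m) {a : ℕ → 𝓞 K}
    (ha : ∀ i j, ∀ t ≤ m + 1, (a i - a j ∈ v.asIdeal ^ t ↔
      i % Ideal.absNorm v.asIdeal ^ t = j % Ideal.absNorm v.asIdeal ^ t))
    (hne : ∏ j ∈ (Finset.range (m + 1)).erase i, (a i - a j) ≠ 0) :
    ord v (intU _ hne) ≤ factExp (Ideal.absNorm v.asIdeal) m := by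
  set q := Ideal.absNorm v.asIdeal with hq
  have hq2 := two_le_absNorm v.isPrime v.ne_bot
  have hqm : m < q ^ (m + 1) :=
    lt_of_lt_of_le (Nat.lt_pow_self (lt_of_lt_of_le one_lt_two hq2))
      (Nat.pow_le_pow_right (by omega) (Nat.le_succ m))
  set s := (Finset.range (m + 1)).erase i
  have hne' : ∀ j ∈ s, a i - a j ≠ 0 := fun j hj h0 => hne (Finset.prod_eq_zero hj h0)
  have hprod : intU (∏ j ∈ s, (a i - a j)) hne =
      ∏ j : s, intU (a i - a j.1) (hne' j.1 j.2) := Units.ext (by
    rw [intU_val, Units.coe_prod, ← Finset.prod_coe_sort s]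
    exact map_prod (algebraMap (𝓞 K) K) _ _)
  rw [hprod, ord_prod]
  -- each difference
  have hone : ∀ j : s, ord v (intU (a i - a j.1) (hne' j.1 j.2)) ≤
      (((Finset.Icc 1 m).filter fun t => i % q ^ t = j.1 % q ^ t).card : ℤ) := fun j => by
    obtain ⟨k, hk⟩ := Int.eq_ofNat_of_zero_le (ord_intU_nonneg v (hne' j.1 j.2))
    rw [hk, Nat.cast_le]
    have hkmem : a i - a j.1 ∈ v.asIdeal ^ k := (le_ord_intU_iff v _ k).1 hk.ge
    have hkm : k ≤ m := by
      by_contra hlt
      have h1 := (ha i j.1 (m + 1) le_rfl).1 (Ideal.pow_le_pow_right (by omega) hkmem)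
      have hj := Finset.mem_erase.1 j.2
      rw [Nat.mod_eq_of_lt (by omega), Nat.mod_eq_of_lt (by have := Finset.mem_range.1 hj.2; omega)]
        at h1
      exact hj.1 h1.symm
    refine le_trans (by simp) (Finset.card_le_card (s := Finset.Icc 1 k) fun t ht => ?_)
    obtain ⟨h1, h2⟩ := Finset.mem_Icc.1 ht
    exact Finset.mem_filter.2 ⟨Finset.mem_Icc.2 ⟨h1, h2.trans hkm⟩,
      (ha i j.1 t (by omega)).1 (Ideal.pow_le_pow_right h2 hkmem)⟩
  refine (Finset.sum_le_sum fun j _ => hone j).trans ?_
  rw [← Nat.cast_sum, Nat.cast_le, Finset.sum_coe_sort s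
    fun j => ((Finset.Icc 1 m).filter fun t => i % q ^ t = j % q ^ t).card]
  simp only [Finset.card_filter]
  rw [Finset.sum_comm]
  refine Finset.sum_le_sum fun t ht => ?_
  rw [← Finset.card_filter]
  have hqt : 0 < q ^ t := pow_pos (by omega) t
  refine le_trans (Finset.card_le_card_of_injOn (fun j => j / q ^ t)
    (t := (Finset.range (m / q ^ t + 1)).erase (i / q ^ t)) (fun j hj => ?_)
    fun x hx y hy hxy => ?_) (le_of_eq ?_)
  · obtain ⟨hjs, hjm⟩ := Finset.mem_filter.1 hj
    obtain ⟨hji, hjr⟩ := Finset.mem_erase.1 hjs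
    refine Finset.mem_coe.2 (Finset.mem_erase.2 ⟨fun h => hji ?_, Finset.mem_range.2
      (Nat.lt_succ_of_le (Nat.div_le_div_right (by have := Finset.mem_range.1 hjr; omega)))⟩)
    rw [← Nat.div_add_mod j (q ^ t), ← Nat.div_add_mod i (q ^ t)]
    rw [show j / q ^ t = i / q ^ t from h, hjm]
  · have h1 := (Finset.mem_filter.1 hx).2
    have h2 := (Finset.mem_filter.1 hy).2
    rw [← Nat.div_add_mod x (q ^ t), ← Nat.div_add_mod y (q ^ t)]
    rw [show x / q ^ t = y / q ^ t from hxy, ← h1, ← h2]
  · rw [Finset.card_erase_of_mem (Finset.mem_range.2 (Nat.lt_succ_of_le (Nat.div_le_div_right hi))),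
      Finset.card_range]
    exact Nat.succ_sub_one _

/-- **The leading coefficients are bounded by the factorial.** -/
theorem le_ord_coeff {m : ℕ} {f : K[X]} (hf : IntVal K f) (hdeg : f.natDegree ≤ m) {c : Kˣ}
    (hc : f.coeff m = (c : K)) (v : HeightOneSpectrum (𝓞 K)) :
    -(factExp (Ideal.absNorm v.asIdeal) m : ℤ) ≤ ord v c := by
  obtain ⟨a, ha⟩ := exists_seq v.isPrime v.ne_bot (m + 1)
  set q := Ideal.absNorm v.asIdeal with hq
  have hqm : m < q ^ (m + 1) :=
    lt_of_lt_of_le (Nat.lt_pow_self (lt_of_lt_of_le one_lt_two (two_le_absNorm v.isPrime v.ne_bot)))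
      (Nat.pow_le_pow_right (le_trans one_le_two (two_le_absNorm v.isPrime v.ne_bot))
        (Nat.le_succ m))
  have hinj : ∀ i ∈ Finset.range (m + 1), ∀ j ∈ Finset.range (m + 1), a i = a j → i = j := by
    intro i hi j hj h
    have h1 := (ha i j (m + 1) le_rfl).1 (by rw [h, sub_self]; exact zero_mem _)
    rw [Nat.mod_eq_of_lt (by have := Finset.mem_range.1 hi; omega),
      Nat.mod_eq_of_lt (by have := Finset.mem_range.1 hj; omega)] at h1
    exact h1
  have hL := Lagrange.coeff_eq_sum (s := Finset.range (m + 1)) (v := fun i => (a i : K))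
    (fun i hi j hj h => hinj i hi j hj (RingOfIntegers.coe_injective h)) (P := f)
    (by
      rw [Finset.card_range]
      exact lt_of_le_of_lt degree_le_natDegree (by exact_mod_cast Nat.lt_succ_of_le hdeg))
  rw [Finset.card_range, Nat.add_sub_cancel, hc] at hL
  have key : v.valuation K (c : K) ≤ WithZero.exp ((factExp q m : ℕ) : ℤ) := by
    rw [hL]
    refine Valuation.map_sum_le _ fun i hi => ?_
    obtain ⟨y, hy⟩ := hf (a i)
    have hne : ∏ j ∈ (Finset.range (m + 1)).erase i, (a i - a j) ≠ 0 :=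
      Finset.prod_ne_zero_iff.2 fun j hj => sub_ne_zero.2 fun h =>
        (Finset.ne_of_mem_erase hj) (hinj i hi j (Finset.mem_of_mem_erase hj) h).symm
    have hd : (∏ j ∈ (Finset.range (m + 1)).erase i, ((a i : K) - (a j : K))) =
        (intU _ hne : K) := by
      rw [intU_val]
      exact (Finset.prod_congr rfl fun j _ => (map_sub (algebraMap (𝓞 K) K) _ _).symm).trans
        (map_prod (algebraMap (𝓞 K) K) _ _).symm
    have ho := ord_prod_sub_le (v := v) (Nat.lt_succ_iff.1 (Finset.mem_range.1 hi)) ha hne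
    rw [hd, hy, map_div₀, valuation_eq_exp v (intU _ hne)]
    have h1 : v.valuation K (y : K) ≤ 1 := v.valuation_le_one y
    calc v.valuation K (y : K) / WithZero.exp (-ord v (intU _ hne))
        ≤ 1 / WithZero.exp (-ord v (intU _ hne)) := by
          rw [div_eq_mul_inv, div_eq_mul_inv]
          exact mul_le_mul_of_nonneg_right h1 zero_le
      _ = WithZero.exp (ord v (intU _ hne)) := by rw [one_div, ← WithZero.exp_neg, neg_neg]
      _ ≤ WithZero.exp ((factExp q m : ℕ) : ℤ) := WithZero.exp_le_exp.2 ho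
  rw [valuation_eq_exp v c, WithZero.exp_le_exp] at key
  omega

/-- An element with prescribed order at one prime, bounded below elsewhere. -/
theorem exists_ord_eq_and_ge (v : HeightOneSpectrum (𝓞 K))
    (e : HeightOneSpectrum (𝓞 K) → ℤ) (he : ∀ u, e u ≤ 0) :
    ∃ c : Kˣ, ord v c = e v ∧ ∀ u, e u ≤ ord u c := by
  obtain ⟨π, hπ⟩ := exists_ord_eq_one v
  set x := π ^ e v
  have hx : ord v x = e v := by rw [ord_zpow, hπ, mul_one]
  set S := ((finite_ord_ne_zero x).toFinset.erase v) with hS
  obtain ⟨y, hy⟩ := IsDedekindDomain.exists_forall_sub_mem_ideal (s := insert v S)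
    (fun u => u.asIdeal) (fun u => if u = v then 1 else (ord u x).natAbs) (fun u _ => u.prime)
    (fun u _ w _ hne h => hne (HeightOneSpectrum.ext h)) fun u => if u.1 = v then 1 else 0
  have hyv : y ∉ v.asIdeal := fun hm => by
    have h1 := hy v (Finset.mem_insert_self v S)
    simp only [if_true, pow_one] at h1
    exact v.isPrime.ne_top ((Ideal.eq_top_iff_one _).2 (by simpa using sub_mem hm h1))
  have hy0 : y ≠ 0 := fun h => hyv (h ▸ zero_mem _)
  refine ⟨x * intU y hy0, by rw [ord_mul, hx, (ord_intU_eq_zero_iff v hy0).2 hyv, add_zero],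
    fun u => ?_⟩
  rcases eq_or_ne u v with rfl | hu
  · rw [ord_mul, hx]
    exact le_add_of_nonneg_right (ord_intU_nonneg _ hy0)
  · by_cases hux : ord u x = 0
    · rw [ord_mul, hux, zero_add]
      exact (he u).trans (ord_intU_nonneg _ hy0)
    · have h1 := hy u (Finset.mem_insert_of_mem (Finset.mem_erase.2 ⟨hu,
        (Set.Finite.mem_toFinset _).2 hux⟩))
      simp only [if_neg hu, sub_zero] at h1
      have h2 := (le_ord_intU_iff u hy0 _).2 h1
      rw [ord_mul]
      have := he u
      omega

/-- A regular basis makes every factorial principal. -/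
theorem factDiv_mem_of_basis (h : HasRegularBasis K) (m : ℕ) :
    factDiv K m ∈ (ordHom (F := K)).range := by
  obtain ⟨b, hb, hspan⟩ := h
  have hcoeff : ∀ i, (b i).coeff i ≠ 0 := fun i => coeff_ne_zero_of_eq_degree (hb i).2
  set β := Units.mk0 _ (hcoeff m)
  refine ⟨β⁻¹, Multiplicative.toAdd.injective (Finsupp.ext fun v => ?_)⟩
  rw [toAdd_ordHom, toAdd_factDiv, ord_inv]
  have hlow : -(factExp (Ideal.absNorm v.asIdeal) m : ℤ) ≤ ord v β :=
    le_ord_coeff (hb m).1 (natDegree_le_iff_degree_le.2 (hb m).2.le) rfl v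
  obtain ⟨c, hcv, hc⟩ := exists_ord_eq_and_ge v
    (fun u => -(factExp (Ideal.absNorm u.asIdeal) m : ℤ)) fun u => by simp
  obtain ⟨f, hf, hfd, hfc⟩ := exists_intVal hc
  obtain ⟨r, hr⟩ := Finsupp.mem_span_range_iff_exists_finsupp.1 (hspan f hf)
  -- no term of higher degree occurs
  have htop : ∀ i ∈ r.support, i ≤ m := by
    by_contra hcon
    push Not at hcon
    obtain ⟨i, hi, him⟩ := hcon
    set M := r.support.max' ⟨i, hi⟩
    have hM : m < M := lt_of_lt_of_le him (Finset.le_max' _ _ hi)
    have h0 : f.coeff M = 0 := coeff_eq_zero_of_degree_lt (by rw [hfd]; exact_mod_cast hM)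
    rw [← hr, Finsupp.sum, finsetSum_coeff, Finset.sum_eq_single M] at h0
    · rw [coeff_smul, Algebra.smul_def, mul_eq_zero] at h0
      rcases h0 with h0 | h0
      · exact Finsupp.mem_support_iff.1 (Finset.max'_mem _ _)
          (RingOfIntegers.coe_eq_zero_iff.1 h0)
      · exact hcoeff M h0
    · intro j hj hjM
      rw [coeff_smul, coeff_eq_zero_of_degree_lt (by
        rw [(hb j).2]; exact_mod_cast lt_of_le_of_ne (Finset.le_max' _ _ hj) hjM), smul_zero]
    · exact fun h => absurd (Finset.max'_mem _ _) h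
  have hcm : (c : K) = (r m : K) * (β : K) := by
    rw [← hfc, ← hr, Finsupp.sum, finsetSum_coeff, Finset.sum_eq_single m]
    · rw [coeff_smul, Algebra.smul_def]; rfl
    · intro j hj hjm
      rw [coeff_smul, coeff_eq_zero_of_degree_lt (by
        rw [(hb j).2]; exact_mod_cast lt_of_le_of_ne (htop j hj) hjm), smul_zero]
    · intro h
      rw [coeff_smul, Finsupp.notMem_support_iff.1 h, zero_smul]
  have hrm : r m ≠ 0 := fun h0 => c.ne_zero (by rw [hcm, h0]; simp)
  have hcu : c = intU (r m) hrm * β := Units.ext hcm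
  have h2 := ord_intU_nonneg v hrm
  rw [hcu, ord_mul] at hcv
  omega

/-- Principal factorials give a regular basis. -/
theorem hasRegularBasis_of_factDiv (h : ∀ m, factDiv K m ∈ (ordHom (F := K)).range) :
    HasRegularBasis K := by
  choose u hu using h
  have hu' : ∀ m v, ord v (u m) = (factExp (Ideal.absNorm v.asIdeal) m : ℤ) := fun m v =>
    DFunLike.congr_fun (congrArg Multiplicative.toAdd (hu m)) v
  choose b hb hbd hbc using fun m => exists_intVal (m := m) (c := (u m)⁻¹) fun v => by
    rw [ord_inv, hu']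
  refine ⟨b, fun m => ⟨hb m, hbd m⟩, fun f => ?_⟩
  induction hn : f.natDegree using Nat.strong_induction_on generalizing f with
  | _ n ih =>
    intro hf
    by_cases hf0 : f = 0
    · rw [hf0]; exact zero_mem _
    set c := Units.mk0 _ (show f.coeff n ≠ 0 by
      rw [← hn, ← leadingCoeff]; exact leadingCoeff_ne_zero.2 hf0)
    obtain ⟨r, hr0, hr⟩ := exists_intU_of_ord_nonneg (x := c * u n) fun v => by
      have h1 := le_ord_coeff hf hn.le (c := c) rfl v
      rw [ord_mul, hu']
      omega
    have hrn : (r : K) = f.coeff n * (u n : K) := by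
      rw [← intU_val r hr0, ← hr, Units.val_mul]; rfl
    set g := f - r • b n with hg
    have hrb : r • b n = C (r : K) * b n := by
      rw [Algebra.smul_def]
      rfl
    have hgI : IntVal K g := fun x => by
      obtain ⟨y, hy⟩ := hf x
      obtain ⟨z, hz⟩ := hb n x
      refine ⟨y - r * z, ?_⟩
      rw [hg, eval_sub, hrb, eval_mul, eval_C, hy, hz]
      exact (by simp : (y : K) - (r : K) * (z : K) = ((y - r * z : 𝓞 K) : K))
    have hgn : g.coeff n = 0 := by
      rw [hg, coeff_sub, hrb, coeff_C_mul, hbc n]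
      show f.coeff n - (r : K) * _ = 0
      rw [hrn, mul_assoc, ← Units.val_mul, mul_inv_cancel, Units.val_one, mul_one, sub_self]
    have hle : g.natDegree ≤ n := by
      refine (natDegree_sub_le _ _).trans (max_le hn.le ?_)
      exact (natDegree_smul_le _ _).trans (natDegree_le_iff_degree_le.2 (hbd n).le)
    have hmem : g ∈ Submodule.span (𝓞 K) (Set.range b) := by
      rcases hle.lt_or_eq with h | h
      · exact ih _ h g rfl hgI
      · have : g = 0 := by
          refine leadingCoeff_eq_zero.1 ?_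
          rw [leadingCoeff, h, hgn]
        rw [this]; exact zero_mem _
    rw [show f = g + r • b n by rw [hg, sub_add_cancel]]
    exact add_mem hmem (Submodule.smul_mem _ _ (Submodule.subset_span ⟨n, rfl⟩))

/-- **Pólya–Ostrowski.** -/
theorem hasRegularBasis_iff : HasRegularBasis K ↔ ∀ q, normDiv K q ∈ (ordHom (F := K)).range := by
  have hfact : ∀ m, factDiv K m = ∏ q ∈ Finset.range (m + 1), normDiv K q ^ factExp q m := fun m => by
    refine Multiplicative.toAdd.injective (Finsupp.ext fun v => ?_)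
    rw [toAdd_prod, Finsupp.finsetSum_apply, toAdd_factDiv]
    simp only [toAdd_pow, Finsupp.smul_apply, toAdd_normDiv, smul_ite, nsmul_one, smul_zero]
    rw [Finset.sum_ite_eq]
    split_ifs with h
    · rfl
    · rw [factExp_eq_zero (by rw [Finset.mem_range] at h; omega)]; rfl
  refine ⟨fun h q => ?_, fun h => hasRegularBasis_of_factDiv fun m => by
    rw [hfact]; exact Subgroup.prod_mem _ fun q _ => pow_mem (h q) _⟩
  induction q using Nat.strong_induction_on with
  | _ q ih =>
    rcases Nat.lt_or_ge q 2 with hq | hq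
    · have he : normDiv K q = 1 := Multiplicative.toAdd.injective (Finsupp.ext fun v => by
        have := two_le_absNorm v.isPrime v.ne_bot
        simp [show Ideal.absNorm v.asIdeal ≠ q by omega])
      rw [he]; exact one_mem _
    · have h1 := factDiv_mem_of_basis h q
      rw [hfact, Finset.prod_range_succ, factExp_self hq, pow_one] at h1
      exact (Subgroup.mul_mem_cancel_left _ (Subgroup.prod_mem _ fun q' hq' =>
        pow_mem (ih q' (Finset.mem_range.1 hq')) _)).1 h1

/-- **Leading coefficients in degree `m`.** -/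
theorem exists_intVal_coeff_iff (m : ℕ) (c : K) :
    (∃ f : K[X], IntVal K f ∧ f.natDegree ≤ m ∧ f.coeff m = c) ↔
      ∀ v : HeightOneSpectrum (𝓞 K),
        v.valuation K c ≤ WithZero.exp ((factExp (Ideal.absNorm v.asIdeal) m : ℕ) : ℤ) := by
  rcases eq_or_ne c 0 with rfl | hc
  · exact ⟨fun _ v => by simp, fun _ => ⟨0, fun x => ⟨0, by simp⟩, by simp, by simp⟩⟩
  have hv : ∀ v : HeightOneSpectrum (𝓞 K),
      v.valuation K c ≤ WithZero.exp ((factExp (Ideal.absNorm v.asIdeal) m : ℕ) : ℤ) ↔
      -(factExp (Ideal.absNorm v.asIdeal) m : ℤ) ≤ ord v (Units.mk0 c hc) := fun v => by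
    rw [show v.valuation K c = v.valuation K (Units.mk0 c hc : K) from rfl, valuation_eq_exp,
      WithZero.exp_le_exp]
    omega
  simp only [hv]
  refine ⟨fun ⟨f, hf, hd, he⟩ v => le_ord_coeff hf hd (c := Units.mk0 c hc) he v, fun h => ?_⟩
  obtain ⟨f, hf, hd, he⟩ := exists_intVal h
  exact ⟨f, hf, natDegree_le_iff_degree_le.2 hd.le, he⟩

end FA.IntValued
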