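import Fermat.Agent.IntValued.Factorial
import Fermat.Agent.AmbiguousClass.Applications

/-!
# Pólya fields among cyclic fields of odd prime degree

In a Galois field the products of the primes of a given norm are the fibres over the rational
primes, principal at the unramified ones. In a cyclic field of odd prime degree they generate the
fixed classes, so there is a regular basis iff one prime ramifies.
-/

set_option autoImplicit false
set_option linter.unusedSectionVars false
set_option linter.style.haveILetI false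

noncomputable section

open NumberField IsDedekindDomain
open scoped Pointwise Classical

namespace FA.IntValued

open FA.ArtinRec FA.AmbClass

variable {L : Type*} [Field L] [NumberField L]

/-- The divisor of the product of the primes over `v`. -/
def fibreDiv (v : HeightOneSpectrum (𝓞 ℚ)) : Dvs L :=
  Multiplicative.ofAdd (Finsupp.ofSupportFinite
    (fun Q : HeightOneSpectrum (𝓞 L) => if belowP ℚ Q = v then (1 : ℤ) else 0)
    ((finite_belowP v).subset fun Q hQ => by_contra fun h => hQ (if_neg h)))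

@[simp] theorem toAdd_fibreDiv (v : HeightOneSpectrum (𝓞 ℚ)) (Q : HeightOneSpectrum (𝓞 L)) :
    Multiplicative.toAdd (fibreDiv v) Q = if belowP ℚ Q = v then (1 : ℤ) else 0 := rfl

variable [IsGalois ℚ L]

theorem absNorm_galPrime (g : L ≃ₐ[ℚ] L) (Q : HeightOneSpectrum (𝓞 L)) :
    Ideal.absNorm (galPrime g Q).asIdeal = Ideal.absNorm Q.asIdeal := by
  simp only [Ideal.absNorm_apply, Submodule.cardQuot_apply]
  exact Nat.card_congr (Ideal.quotientEquiv Q.asIdeal (galPrime g Q).asIdeal
    (MulSemiringAction.toRingEquiv (L ≃ₐ[ℚ] L) (𝓞 L) g) rfl).toEquiv.symm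

/-- Primes of equal norm lie over the same prime, and conversely. -/
theorem absNorm_eq_iff (Q Q' : HeightOneSpectrum (𝓞 L)) :
    Ideal.absNorm Q'.asIdeal = Ideal.absNorm Q.asIdeal ↔ belowP ℚ Q' = belowP ℚ Q := by
  constructor
  · intro h
    refine (Rat.HeightOneSpectrum.primesEquiv).injective (Subtype.ext ?_)
    show Rat.HeightOneSpectrum.natGenerator (belowP ℚ Q') =
      Rat.HeightOneSpectrum.natGenerator (belowP ℚ Q)
    have key : ∀ R : HeightOneSpectrum (𝓞 L), ∀ n : ℕ, (n : 𝓞 L) ∈ R.asIdeal →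
        Rat.HeightOneSpectrum.natGenerator (belowP ℚ R) ∣ n := fun R n hn => by
      rw [Rat.HeightOneSpectrum.natGenerator_dvd_iff,
        ← map_natCast (Rat.IsIntegralClosure.intEquiv (𝓞 ℚ)) n, Ideal.apply_mem_of_equiv_iff]
      show algebraMap (𝓞 ℚ) (𝓞 L) (n : 𝓞 ℚ) ∈ R.asIdeal
      rwa [map_natCast]
    set p := Rat.HeightOneSpectrum.natGenerator (belowP ℚ Q) with hp
    have hpQ : (p : 𝓞 L) ∈ Q.asIdeal := by
      have h1 : ((p : 𝓞 ℚ)) ∈ (belowP ℚ Q).asIdeal := by
        rw [← Ideal.apply_mem_of_equiv_iff (f := Rat.IsIntegralClosure.intEquiv (𝓞 ℚ)), map_natCast,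
          ← Rat.HeightOneSpectrum.natGenerator_dvd_iff]
      have h2 : algebraMap (𝓞 ℚ) (𝓞 L) (p : 𝓞 ℚ) ∈ Q.asIdeal := h1
      rwa [map_natCast] at h2
    have hd : Ideal.absNorm Q.asIdeal ∣ p ^ Module.finrank ℤ (𝓞 L) := by
      have h1 := Ideal.absNorm_dvd_absNorm_of_le ((Ideal.span_singleton_le_iff_mem Q.asIdeal).2 hpQ)
      rwa [Ideal.absNorm_span_singleton, ← map_natCast (algebraMap ℤ (𝓞 L)), Algebra.norm_algebraMap,
        Int.natAbs_pow, Int.natAbs_natCast] at h1
    have h2 := key Q' _ (Ideal.absNorm_mem Q'.asIdeal)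
    rw [h] at h2
    exact (Nat.prime_dvd_prime_iff_eq (Rat.HeightOneSpectrum.prime_natGenerator _)
      (Rat.HeightOneSpectrum.prime_natGenerator _)).1
        ((Rat.HeightOneSpectrum.prime_natGenerator _).dvd_of_dvd_pow (h2.trans hd))
  · intro h
    obtain ⟨g, hg⟩ := Algebra.IsInvariant.exists_smul_of_under_eq (𝓞 ℚ) (𝓞 L) (L ≃ₐ[ℚ] L)
      Q.asIdeal Q'.asIdeal (congrArg HeightOneSpectrum.asIdeal h.symm)
    rw [show Q' = galPrime g Q from HeightOneSpectrum.ext hg, absNorm_galPrime]

/-- **Galois fields**: a regular basis iff all fibres are principal. -/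
theorem hasRegularBasis_galois :
    HasRegularBasis L ↔ ∀ v, fibreDiv v ∈ (ordHom (F := L)).range := by
  have heq : ∀ Q : HeightOneSpectrum (𝓞 L),
      normDiv L (Ideal.absNorm Q.asIdeal) = fibreDiv (belowP ℚ Q) := fun Q => by
    refine Multiplicative.toAdd.injective (Finsupp.ext fun R => ?_)
    rw [toAdd_normDiv, toAdd_fibreDiv]
    exact if_congr (absNorm_eq_iff Q R) rfl rfl
  rw [hasRegularBasis_iff]
  refine ⟨fun h v => ?_, fun h q => ?_⟩
  · obtain ⟨Q, rfl⟩ := exists_belowP ℚ L v
    rw [← heq]; exact h _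
  · by_cases hq : ∃ Q : HeightOneSpectrum (𝓞 L), Ideal.absNorm Q.asIdeal = q
    · obtain ⟨Q, rfl⟩ := hq
      rw [heq]; exact h _
    · rw [show normDiv L q = 1 from Multiplicative.toAdd.injective (Finsupp.ext fun Q => by
        simp [not_exists.1 hq Q])]
      exact one_mem _

/-- A fibre to the ramification index is principal. -/
theorem fibreDiv_pow_mem (v : HeightOneSpectrum (𝓞 ℚ)) :
    fibreDiv v ^ eBase L v ∈ (ordHom (F := L)).range := by
  obtain ⟨a, ha⟩ : ∃ a : ℚˣ, ordHom a = Multiplicative.ofAdd (Finsupp.single v (1 : ℤ)) := by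
    have h : Multiplicative.ofAdd (Finsupp.single v (1 : ℤ)) ∈ (cls (F := ℚ)).ker := by
      have : Subsingleton (ClassGroup (𝓞 ℚ)) := Fintype.card_le_one_iff_subsingleton.1
        (le_of_eq Rat.classNumber_eq)
      exact Subsingleton.elim _ _
    rwa [ker_cls] at h
  refine ⟨baseU a, Multiplicative.toAdd.injective (Finsupp.ext fun Q => ?_)⟩
  rw [toAdd_ordHom, ord_baseU, eIdx_eq_eBase, ← toAdd_ordHom, ha, toAdd_ofAdd, toAdd_pow,
    Finsupp.smul_apply, toAdd_fibreDiv, Finsupp.single_apply]
  by_cases h : belowP ℚ Q = v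
  · rw [if_pos h, if_pos h.symm, h]
    simp
  · rw [if_neg h, if_neg fun h' => h h'.symm]
    simp

variable {p : ℕ} [Fact p.Prime]

/-- With a regular basis every fixed class is trivial. -/
theorem fixed_eq_one [IsCyclic (L ≃ₐ[ℚ] L)] (hp : Odd p) (hdeg : Module.finrank ℚ L = p)
    (h : HasRegularBasis L) {c : ClassGroup (𝓞 L)} (hc : ∀ g : L ≃ₐ[ℚ] L, galCl g c = c) : c = 1 := by
  obtain ⟨σ, hσ⟩ := exists_generator (K := ℚ) (L := L)
  obtain ⟨d, rfl⟩ := surjective_cls c
  set n := Module.finrank ℚ L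
  have hd : diffHom (galDiv σ) d ∈ (cls (F := L)).ker := by
    rw [MonoidHom.mem_ker, diffHom_apply, map_div, cls_galDiv, hc σ, div_self']
  rw [ker_cls] at hd
  obtain ⟨x, hx⟩ := hd
  -- its norm is a unit of the rationals
  set z := Units.map (Algebra.norm ℚ (S := L)) x
  have hz : ∀ v, ord v z = 0 := fun v => by
    obtain ⟨Q, rfl⟩ := exists_belowP ℚ L v
    have h1 : ordHom (normHom (galU σ) n x) = normHom (galDiv σ) n (ordHom x) := by
      have hit : ∀ i : ℕ, (galDiv σ)^[i] (ordHom x) = ordHom ((galU σ)^[i] x) := fun i => by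
        induction i with
        | zero => rfl
        | succ i ih =>
          rw [Function.iterate_succ_apply', Function.iterate_succ_apply', ih, galDiv_ordHom]
      simp only [ArtinRec.normHom_apply, map_prod, hit]
    rw [hx, diffHom_apply, map_div, norm_apply_s (galDiv_period hσ), div_self', baseU_norm hσ] at h1
    have h2 := DFunLike.congr_fun (congrArg Multiplicative.toAdd h1) Q
    rw [toAdd_ordHom, toAdd_one, Finsupp.zero_apply] at h2
    exact (ord_baseU_eq_zero_iff Q z).1 h2
  obtain ⟨u, hu⟩ := exists_intUnits_eq hz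
  have hz2 : z = 1 ∨ z = -1 := by
    rcases Int.units_eq_one_or (Units.map Rat.ringOfIntegersEquiv.toMonoidHom u) with h' | h'
    · have : u = 1 := Units.map_injective Rat.ringOfIntegersEquiv.injective
        (h'.trans (map_one _).symm)
      exact Or.inl (by rw [← hu, this, map_one])
    · have : u = -1 := Units.map_injective Rat.ringOfIntegersEquiv.injective
        (h'.trans (Units.ext (by simp)))
      exact Or.inr (by rw [← hu, this]; exact Units.ext (by simp [intUnits]))
  obtain ⟨x', hx', hx'n⟩ : ∃ x' : Lˣ, ordHom x' = diffHom (galDiv σ) d ∧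
      normHom (galU σ) n x' = 1 := by
    rcases hz2 with h' | h'
    · exact ⟨x, hx, by rw [baseU_norm hσ]; show baseU z = 1; rw [h', map_one]⟩
    · refine ⟨-x, ?_, ?_⟩
      · rw [← hx]
        have h1 : ∀ v, ord v (-1 : Lˣ) = 0 := fun v => by
          have h2 : ord v ((-1 : Lˣ) * -1) = 0 := by rw [neg_one_mul, neg_neg, ord_one]
          rw [ord_mul] at h2
          omega
        refine Multiplicative.toAdd.injective (Finsupp.ext fun v => ?_)
        rw [toAdd_ordHom, toAdd_ordHom, ← neg_one_mul x, ord_mul, h1, zero_add]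
      · rw [baseU_norm hσ]
        have h3 : Units.map (Algebra.norm ℚ (S := L)) (-x) = 1 := by
          refine Units.ext ?_
          show Algebra.norm ℚ (-(x : L)) = 1
          rw [← neg_one_mul, map_mul, show (-1 : L) = algebraMap ℚ L (-1) by simp,
            Algebra.norm_algebraMap,
            show Module.finrank ℚ L = p from hdeg, hp.neg_one_pow,
            show Algebra.norm ℚ (x : L) = ((z : ℚˣ) : ℚ) from rfl, h']
          simp
        rw [h3, map_one]
  obtain ⟨y, hy⟩ := exists_diff_eq hσ hx'n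
  -- a fixed divisor
  set d' := d / ordHom y with hd'
  have hfix : galDiv σ d' = d' := by
    rw [← div_eq_one, ← diffHom_apply, hd', map_div,
      show diffHom (galDiv σ) (ordHom y) = ordHom (diffHom (galU σ) y) by
        rw [diffHom_apply, diffHom_apply, map_div, galDiv_ordHom], hy, hx', div_self']
  have hconst : ∀ Q R, belowP ℚ Q = belowP ℚ R →
      Multiplicative.toAdd d' Q = Multiplicative.toAdd d' R := fun Q R hQR => by
    obtain ⟨i, hi⟩ := exists_iterate_eq hσ hQR
    rw [← hi]
    clear hi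
    induction i with
    | zero => rfl
    | succ i ih =>
      rw [Function.iterate_succ_apply', ih]
      conv_rhs => rw [← hfix, galDiv_apply]
  set T := (Multiplicative.toAdd d').support.image (belowP ℚ)
  have hprod : d' = ∏ v ∈ T, fibreDiv v ^ Multiplicative.toAdd d' (abovePrime ℚ L v) := by
    refine Multiplicative.toAdd.injective (Finsupp.ext fun Q => ?_)
    rw [toAdd_prod, Finsupp.finsetSum_apply]
    simp only [toAdd_zpow, Finsupp.smul_apply, toAdd_fibreDiv, smul_ite, smul_zero, zsmul_one,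
      Int.cast_id]
    rw [Finset.sum_ite_eq]
    split_ifs with hQ
    · exact hconst _ _ (belowP_abovePrime _).symm
    · exact Finsupp.notMem_support_iff.1 fun hm => hQ (Finset.mem_image_of_mem _ hm)
  have hd1 : d ∈ (ordHom (F := L)).range := by
    rw [show d = d' * ordHom y by rw [hd', div_mul_cancel]]
    refine mul_mem ?_ ⟨y, rfl⟩
    rw [hprod]
    exact Subgroup.prod_mem _ fun v _ => zpow_mem (hasRegularBasis_galois.1 h v) _
  rwa [← ker_cls] at hd1

/-- **A regular basis iff one prime ramifies.** -/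
theorem hasRegularBasis_iff_one [IsCyclic (L ≃ₐ[ℚ] L)] (hp : Odd p)
    (hdeg : Module.finrank ℚ L = p) :
    HasRegularBasis L ↔ Nat.card {q : Nat.Primes // ((q : ℕ) : ℤ) ∣ discr L} = 1 := by
  have hF := card_fixed_rat (L := L) hp hdeg
  have hp' : p.Prime := Fact.out
  constructor
  · intro h
    have h1 : Nat.card {c : ClassGroup (𝓞 L) // ∀ g : L ≃ₐ[ℚ] L, galCl g c = c} = 1 :=
      Nat.card_eq_one_iff_unique.2 ⟨⟨fun a b => Subtype.ext
        ((fixed_eq_one hp hdeg h a.2).trans (fixed_eq_one hp hdeg h b.2).symm)⟩,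
        ⟨⟨1, fun g => map_one _⟩⟩⟩
    rw [h1, one_mul] at hF
    refine Nat.pow_right_injective hp'.two_le ?_
    simp only [pow_one]
    exact hF.symm
  · intro ht
    rw [ht, pow_one] at hF
    have h1 : Nat.card {c : ClassGroup (𝓞 L) // ∀ g : L ≃ₐ[ℚ] L, galCl g c = c} = 1 :=
      Nat.eq_of_mul_eq_mul_right hp'.pos (hF.trans (one_mul p).symm)
    have hh : ¬ p ∣ classNumber L := fun h => by
      have h2 := dvd_card_fixed (K := ℚ) (L := L) (k := 1) (by rw [hdeg, pow_one]) h
      rw [h1] at h2
      exact hp'.ne_one (Nat.dvd_one.1 h2)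
    refine hasRegularBasis_galois.2 fun v => ?_
    have hv := fibreDiv_pow_mem (L := L) v
    rcases (Nat.dvd_prime hp').1 (hdeg ▸ eBase_dvd (L := L) v) with he | he
    · rwa [he, pow_one] at hv
    · rw [he, ← ker_cls, MonoidHom.mem_ker, map_pow] at hv
      rw [← ker_cls, MonoidHom.mem_ker]
      exact (pow_eq_one_iff_of_coprime (hp'.coprime_iff_not_dvd.2 hh)).1 ⟨hv, pow_card_eq_one⟩

end FA.IntValued
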