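import Mathlib

/-!
# Sequences adapted to a prime

For a prime `P` of norm `q` in a Dedekind domain with finite quotients there is a sequence in which
two terms are congruent modulo `P ^ t` iff their places are congruent modulo `q ^ t`.
-/

set_option autoImplicit false

noncomputable section

open NumberField Finset
open scoped Classical

namespace FA.IntValued

/-- The exponent of `P` in the factorial of `m`, for `q` the norm of `P`. -/
def factExp (q m : ℕ) : ℕ := ∑ t ∈ Icc 1 m, m / q ^ t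

theorem factExp_eq_zero {q m : ℕ} (h : m < q) : factExp q m = 0 :=
  Finset.sum_eq_zero fun t ht => Nat.div_eq_of_lt
    (h.trans_le (Nat.le_self_pow (Nat.one_le_iff_ne_zero.1 (mem_Icc.1 ht).1) q))

theorem factExp_self {q : ℕ} (hq : 2 ≤ q) : factExp q q = 1 := by
  rw [factExp, Finset.sum_eq_single 1, pow_one, Nat.div_self (by omega)]
  · intro t ht ht1
    refine Nat.div_eq_of_lt ?_
    calc q = q ^ 1 := (pow_one q).symm
      _ < q ^ t := Nat.pow_lt_pow_right hq (by have := (mem_Icc.1 ht).1; omega)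
  · intro h
    exact absurd (mem_Icc.2 ⟨le_rfl, by omega⟩) h

variable {K : Type*} [Field K] [NumberField K] {P : Ideal (𝓞 K)}

theorem two_le_absNorm (hP : P.IsPrime) (hP0 : P ≠ ⊥) : 2 ≤ Ideal.absNorm P := by
  have h0 : Ideal.absNorm P ≠ 0 := Ideal.absNorm_eq_zero_iff.not.2 hP0
  have h1 : Ideal.absNorm P ≠ 1 := fun h => hP.ne_top (Ideal.absNorm_eq_one_iff.1 h)
  omega

/-- **An adapted sequence.** -/
theorem exists_seq (hP : P.IsPrime) (hP0 : P ≠ ⊥) (N : ℕ) :
    ∃ a : ℕ → 𝓞 K, ∀ i j, ∀ t ≤ N,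
      (a i - a j ∈ P ^ t ↔ i % Ideal.absNorm P ^ t = j % Ideal.absNorm P ^ t) := by
  induction N with
  | zero =>
    refine ⟨fun _ => 0, fun i j t ht => ?_⟩
    rw [Nat.le_zero.1 ht]
    simp [Nat.mod_one]
  | succ N ih =>
    obtain ⟨a, ha⟩ := ih
    set q := Ideal.absNorm P with hq
    have hq0 : 0 < q := lt_of_lt_of_le two_pos (two_le_absNorm hP hP0)
    have : P.IsMaximal := hP.isMaximal hP0
    have : Finite (𝓞 K ⧸ P) := Ideal.finiteQuotientOfFreeOfNeBot P hP0
    let e : Fin q ≃ 𝓞 K ⧸ P := ((finCongr (show q = Nat.card (𝓞 K ⧸ P) by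
      rw [hq, Ideal.absNorm_apply, Submodule.cardQuot_apply])).trans (Finite.equivFin _).symm)
    choose r hr using fun d : Fin q => Ideal.Quotient.mk_surjective (e d)
    have hrr : ∀ d d' : Fin q, r d - r d' ∈ P ↔ d = d' := fun d d' => by
      rw [← Ideal.Quotient.eq, hr, hr, e.apply_eq_iff_eq]
    obtain ⟨π, hπ, hπ'⟩ := SetLike.exists_of_lt (Ideal.pow_succ_lt_pow hP0 N)
    refine ⟨fun i => a (i % q ^ N) + π * r ⟨i / q ^ N % q, Nat.mod_lt _ hq0⟩, fun i j t ht => ?_⟩
    dsimp only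
    set δ := r ⟨i / q ^ N % q, Nat.mod_lt _ hq0⟩ - r ⟨j / q ^ N % q, Nat.mod_lt _ hq0⟩
    have hring : ∀ x y z w : 𝓞 K, x + π * z - (y + π * w) = x - y + π * (z - w) := by
      intros; ring
    rw [hring]
    rcases Nat.lt_or_eq_of_le ht with ht' | rfl
    · have hπt : π * δ ∈ P ^ t := Ideal.mul_mem_right _ _ (Ideal.pow_le_pow_right (by omega) hπ)
      rw [(P ^ t).add_mem_iff_left hπt, ha _ _ t (by omega),
        Nat.mod_mod_of_dvd _ (pow_dvd_pow q (by omega : t ≤ N)),
        Nat.mod_mod_of_dvd _ (pow_dvd_pow q (by omega : t ≤ N))]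
    · have hsplit : ∀ n, n % q ^ (N + 1) = n % q ^ N + q ^ N * (n / q ^ N % q) := fun n => by
        rw [pow_succ, Nat.mod_mul]
      rw [hsplit, hsplit]
      by_cases hlow : i % q ^ N = j % q ^ N
      · rw [hlow, sub_self, zero_add, Nat.add_left_cancel_iff,
          Nat.mul_left_cancel_iff (pow_pos hq0 N)]
        constructor
        · intro h
          exact congrArg Fin.val ((hrr _ _).1 (Ideal.mem_prime_of_mul_mem_pow hP0 hπ' h))
        · intro h
          rw [pow_succ]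
          exact Ideal.mul_mem_mul hπ ((hrr _ _).2 (Fin.ext h))
      · constructor
        · intro h
          refine absurd ?_ hlow
          have h1 : a (i % q ^ N) - a (j % q ^ N) ∈ P ^ N :=
            ((P ^ N).add_mem_iff_left (Ideal.mul_mem_right _ _ hπ)).1
              (Ideal.pow_le_pow_right (Nat.le_succ N) h)
          have h2 := (ha _ _ N le_rfl).1 h1
          rwa [Nat.mod_mod, Nat.mod_mod] at h2
        · intro h
          refine absurd ?_ hlow
          have h2 := congrArg (· % q ^ N) h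
          simpa [Nat.add_mul_mod_self_left] using h2

theorem mem_pow_card (y : 𝓞 K) : ∀ m, y ∈ P ^ ((Icc 1 m).filter fun t => y ∈ P ^ t).card := by
  classical
  intro m
  induction m with
  | zero => simp
  | succ m ih =>
    by_cases h : y ∈ P ^ (m + 1)
    · refine Ideal.pow_le_pow_right ((Finset.card_filter_le _ _).trans ?_) h
      simp
    · have he : (Icc 1 (m + 1)).filter (fun t => y ∈ P ^ t) =
          (Icc 1 m).filter fun t => y ∈ P ^ t := by
        ext t
        simp only [mem_filter, mem_Icc]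
        refine ⟨fun ⟨⟨h1, h2⟩, h3⟩ => ⟨⟨h1, ?_⟩, h3⟩, fun ⟨⟨h1, h2⟩, h3⟩ => ⟨⟨h1, by omega⟩, h3⟩⟩
        by_contra hlt
        exact h (show t = m + 1 by omega ▸ h3)
      rw [he]; exact ih

theorem prod_mem_pow {ι : Type*} (s : Finset ι) (y : ι → 𝓞 K) (m : ℕ) :
    ∏ i ∈ s, y i ∈ P ^ ∑ t ∈ Icc 1 m, ((s.filter fun i => y i ∈ P ^ t).card) := by
  classical
  have h : ∑ t ∈ Icc 1 m, ((s.filter fun i => y i ∈ P ^ t).card) =
      ∑ i ∈ s, ((Icc 1 m).filter fun t => y i ∈ P ^ t).card := by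
    simp only [Finset.card_filter]
    rw [Finset.sum_comm]
  rw [h, ← Finset.prod_pow_eq_pow_sum]
  exact Ideal.prod_mem_prod fun i _ => mem_pow_card _ m

/-- **At every point the product over `m` terms is divisible by the factorial.** -/
theorem prod_sub_mem (hP : P.IsPrime) (hP0 : P ≠ ⊥) {m : ℕ} {b : ℕ → 𝓞 K}
    (hb : ∀ i < m, ∀ j < m, ∀ t, 1 ≤ t → t ≤ m →
      (b i - b j ∈ P ^ t ↔ i % Ideal.absNorm P ^ t = j % Ideal.absNorm P ^ t)) (x : 𝓞 K) :
    ∏ i ∈ range m, (x - b i) ∈ P ^ factExp (Ideal.absNorm P) m := by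
  classical
  set q := Ideal.absNorm P with hq
  refine Ideal.pow_le_pow_right (Finset.sum_le_sum fun t ht => ?_)
    (prod_mem_pow (P := P) (range m) (fun i => x - b i) m)
  obtain ⟨ht1, ht2⟩ := mem_Icc.1 ht
  have hqt : 0 < q ^ t := pow_pos (lt_of_lt_of_le two_pos (two_le_absNorm hP hP0)) t
  by_cases hbig : m < q ^ t
  · rw [Nat.div_eq_of_lt hbig]; exact Nat.zero_le _
  -- the first `q ^ t` terms are a complete residue system
  have : Finite (𝓞 K ⧸ P ^ t) := Ideal.finiteQuotientOfFreeOfNeBot _ (pow_ne_zero _ hP0)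
  have hcard : Nat.card (𝓞 K ⧸ P ^ t) = q ^ t := by
    rw [← Submodule.cardQuot_apply, ← Ideal.absNorm_apply, map_pow]
  let φ : Fin (q ^ t) → 𝓞 K ⧸ P ^ t := fun i => Ideal.Quotient.mk _ (b i.1)
  have hφ : Function.Bijective φ := by
    refine (Nat.bijective_iff_injective_and_card φ).2 ⟨fun i j hij => ?_, by rw [hcard, Nat.card_fin]⟩
    have h1 := (hb i.1 (by omega) j.1 (by omega) t ht1 ht2).1 (Ideal.Quotient.eq.1 hij)
    rw [Nat.mod_eq_of_lt i.2, Nat.mod_eq_of_lt j.2] at h1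
    exact Fin.ext h1
  obtain ⟨i₀, hi₀⟩ := hφ.2 (Ideal.Quotient.mk _ x)
  have hlt : ∀ k < m / q ^ t, i₀.1 + q ^ t * k < m := fun k hk => by
    have h1 : q ^ t * (k + 1) ≤ m := le_trans (Nat.mul_le_mul_left _ hk) (Nat.mul_div_le _ _)
    rw [Nat.mul_succ] at h1
    omega
  rw [← card_range (m / q ^ t)]
  refine Finset.card_le_card_of_injOn (fun k => i₀.1 + q ^ t * k) (fun k hk => ?_)
    (fun a _ b _ h => Nat.eq_of_mul_eq_mul_left hqt (Nat.add_left_cancel h))
  have hk' := hlt k (mem_range.1 hk)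
  refine mem_filter.2 ⟨mem_range.2 hk', ?_⟩
  have h1 : x - b i₀.1 ∈ P ^ t := Ideal.Quotient.eq.1 hi₀.symm
  have h2 : b i₀.1 - b (i₀.1 + q ^ t * k) ∈ P ^ t :=
    (hb _ (by omega) _ hk' t ht1 ht2).2 (Nat.add_mul_mod_self_left _ _ _).symm
  simpa using add_mem h1 h2

end FA.IntValued
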